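import Mathlib
import Fermat.Prelude.Def_AlgebraicCurve_Correspondence

/-!
# Norms in a commuting square of fields (helper46; sub-leaf of HCOMM, Program A)

A commuting square of fields

    F0 --f--> F1
    |g        |g1
    v         v
    F2 --f2-> F'

with `F'` spanned over `F2` by `g1(F1)` (i.e. `F'` is the compositum `f2(F2) * g1(F1)`) and
`[F' : F2] = [F1 : F0] < ∞`.  Then a basis of `F1 / F0` maps to a basis of `F' / F2`, the matrix of
multiplication by `g1 h` is the image under `g` of the matrix of multiplication by `h`, and hence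
norm, trace and characteristic polynomial commute with the square:

    N_{F'/F2}(g1 h) = g (N_{F1/F0} h).

Mathlib only (the last section restates the results with the `algebraAlong` structures of the
definition modules).
-/

set_option autoImplicit false

namespace Fermat.Agent.S29.H46

open Module

section Abstract

variable {F0 F1 F2 F' : Type*} [Field F0] [Field F1] [Field F2] [Field F']
  [Algebra F0 F1] [Algebra F2 F']

/-- The image of a basis of `F1 / F0` spans `F'` over `F2` as soon as `g1(F1)` does. -/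
theorem span_range_comp_basis {ι : Type*} (b : Basis ι F0 F1) (g : F0 →+* F2) (g1 : F1 →+* F')
    (hcomm : ∀ c, g1 (algebraMap F0 F1 c) = algebraMap F2 F' (g c))
    (hspan : Submodule.span F2 (Set.range g1) = ⊤) :
    Submodule.span F2 (Set.range (g1 ∘ b)) = ⊤ := by
  rw [eq_top_iff, ← hspan, Submodule.span_le]
  rintro _ ⟨x, rfl⟩
  have hx := b.linearCombination_repr x
  rw [← hx, Finsupp.linearCombination_apply, Finsupp.sum, map_sum]
  refine Submodule.sum_mem _ fun i _ => ?_
  rw [Algebra.smul_def, map_mul, hcomm, ← Algebra.smul_def]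
  exact Submodule.smul_mem _ _ (Submodule.subset_span ⟨i, rfl⟩)

/-- The image basis of `F' / F2`. -/
noncomputable def squareBasis {ι : Type*} [Fintype ι] (b : Basis ι F0 F1) (g : F0 →+* F2)
    (g1 : F1 →+* F')
    (hcomm : ∀ c, g1 (algebraMap F0 F1 c) = algebraMap F2 F' (g c))
    (hspan : Submodule.span F2 (Set.range g1) = ⊤)
    (hrank : finrank F2 F' = finrank F0 F1) : Basis ι F2 F' :=
  basisOfTopLeSpanOfCardEqFinrank (g1 ∘ b) (span_range_comp_basis b g g1 hcomm hspan).ge
    (by rw [hrank, finrank_eq_card_basis b])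

@[simp]
theorem squareBasis_apply {ι : Type*} [Fintype ι] (b : Basis ι F0 F1) (g : F0 →+* F2)
    (g1 : F1 →+* F')
    (hcomm : ∀ c, g1 (algebraMap F0 F1 c) = algebraMap F2 F' (g c))
    (hspan : Submodule.span F2 (Set.range g1) = ⊤)
    (hrank : finrank F2 F' = finrank F0 F1) (i : ι) :
    squareBasis b g g1 hcomm hspan hrank i = g1 (b i) := by
  simp [squareBasis]

/-- Multiplication matrices commute with the square. -/
theorem leftMulMatrix_square {ι : Type*} [Fintype ι] [DecidableEq ι] (b : Basis ι F0 F1)
    (b' : Basis ι F2 F') (g : F0 →+* F2) (g1 : F1 →+* F')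
    (hcomm : ∀ c, g1 (algebraMap F0 F1 c) = algebraMap F2 F' (g c))
    (hb : ∀ i, b' i = g1 (b i)) (h : F1) :
    Algebra.leftMulMatrix b' (g1 h) = (Algebra.leftMulMatrix b h).map g := by
  ext i j
  rw [Algebra.leftMulMatrix_eq_repr_mul, Matrix.map_apply, Algebra.leftMulMatrix_eq_repr_mul]
  have key : g1 h * b' j = ∑ k, g (b.repr (h * b j) k) • b' k := by
    rw [hb, ← map_mul]
    conv_lhs => rw [← b.sum_repr (h * b j)]
    rw [map_sum]
    refine Finset.sum_congr rfl fun k _ => ?_
    rw [Algebra.smul_def, map_mul, hcomm, ← Algebra.smul_def, hb]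
  rw [key, b'.repr_sum_self]

/-- **Norm compatibility in a square**: `N_{F'/F2}(g1 h) = g (N_{F1/F0} h)`. -/
theorem norm_square [Module.Finite F0 F1] (g : F0 →+* F2) (g1 : F1 →+* F')
    (hcomm : ∀ c, g1 (algebraMap F0 F1 c) = algebraMap F2 F' (g c))
    (hspan : Submodule.span F2 (Set.range g1) = ⊤)
    (hrank : finrank F2 F' = finrank F0 F1) (h : F1) :
    Algebra.norm F2 (g1 h) = g (Algebra.norm F0 h) := by
  classical
  let b := Module.finBasis F0 F1
  let b' := squareBasis b g g1 hcomm hspan hrank
  rw [Algebra.norm_eq_matrix_det b', Algebra.norm_eq_matrix_det b,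
    leftMulMatrix_square b b' g g1 hcomm (squareBasis_apply b g g1 hcomm hspan hrank) h,
    RingHom.map_det]
  rfl

/-- Trace compatibility in a square. -/
theorem trace_square [Module.Finite F0 F1] (g : F0 →+* F2) (g1 : F1 →+* F')
    (hcomm : ∀ c, g1 (algebraMap F0 F1 c) = algebraMap F2 F' (g c))
    (hspan : Submodule.span F2 (Set.range g1) = ⊤)
    (hrank : finrank F2 F' = finrank F0 F1) (h : F1) :
    Algebra.trace F2 F' (g1 h) = g (Algebra.trace F0 F1 h) := by
  classical
  let b := Module.finBasis F0 F1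
  let b' := squareBasis b g g1 hcomm hspan hrank
  rw [Algebra.trace_eq_matrix_trace b', Algebra.trace_eq_matrix_trace b,
    leftMulMatrix_square b b' g g1 hcomm (squareBasis_apply b g g1 hcomm hspan hrank) h]
  simp [Matrix.trace, Matrix.diag]

/-- `F'` is finite over `F2` in the square. -/
theorem finite_square [Module.Finite F0 F1] (g : F0 →+* F2) (g1 : F1 →+* F')
    (hcomm : ∀ c, g1 (algebraMap F0 F1 c) = algebraMap F2 F' (g c))
    (hspan : Submodule.span F2 (Set.range g1) = ⊤)
    (hrank : finrank F2 F' = finrank F0 F1) : Module.Finite F2 F' :=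
  Module.Finite.of_basis (squareBasis (Module.finBasis F0 F1) g g1 hcomm hspan hrank)

/-- The `F2`-span of the subring `g1(F1)` is the subalgebra generated by it. -/
theorem span_range_eq_adjoin (g1 : F1 →+* F') :
    Submodule.span F2 (Set.range g1) = Subalgebra.toSubmodule (Algebra.adjoin F2 (Set.range g1)) := by
  rw [Algebra.adjoin_eq_span]
  congr 1
  have h := Submonoid.closure_eq (MonoidHom.mrange (g1 : F1 →* F'))
  have h2 : ((MonoidHom.mrange (g1 : F1 →* F') : Submonoid F') : Set F') = Set.range g1 := by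
    ext y
    simp
  rw [← h2, h]

/-- Elements of `g1(F1)` are algebraic over `F2` when `F1 / F0` is algebraic. -/
theorem isAlgebraic_square [Algebra.IsAlgebraic F0 F1] (g : F0 →+* F2) (g1 : F1 →+* F')
    (hcomm : ∀ c, g1 (algebraMap F0 F1 c) = algebraMap F2 F' (g c)) (x : F1) :
    IsAlgebraic F2 (g1 x) := by
  obtain ⟨P, hP0, hP⟩ := Algebra.IsAlgebraic.isAlgebraic (R := F0) x
  refine ⟨P.map g, (Polynomial.map_ne_zero_iff g.injective).mpr hP0, ?_⟩
  have hc : (algebraMap F2 F').comp g = g1.comp (algebraMap F0 F1) :=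
    RingHom.ext fun c => (hcomm c).symm
  rw [Polynomial.aeval_def, Polynomial.eval₂_map, hc, ← Polynomial.hom_eval₂,
    ← Polynomial.aeval_def, hP, map_zero]

/-- Compositum form of the spanning hypothesis: if the field generated over `F2` by `g1(F1)` is
everything and `F1 / F0` is algebraic, then `g1(F1)` spans `F'` over `F2`. -/
theorem span_range_eq_top_of_adjoin [Algebra.IsAlgebraic F0 F1] (g : F0 →+* F2) (g1 : F1 →+* F')
    (hcomm : ∀ c, g1 (algebraMap F0 F1 c) = algebraMap F2 F' (g c))
    (hadj : IntermediateField.adjoin F2 (Set.range g1) = ⊤) :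
    Submodule.span F2 (Set.range g1) = ⊤ := by
  have h1 : (IntermediateField.adjoin F2 (Set.range g1)).toSubalgebra
      = Algebra.adjoin F2 (Set.range g1) :=
    IntermediateField.adjoin_toSubalgebra_of_isAlgebraic (by
      rintro _ ⟨x, rfl⟩
      exact isAlgebraic_square g g1 hcomm x)
  rw [span_range_eq_adjoin, ← h1, hadj]
  simp

end Abstract

section Along

open AlgebraicCurve

variable {K F0 F1 F2 F' : Type*} [Field K] [Field F0] [Field F1] [Field F2] [Field F']
  [Algebra K F0] [Algebra K F1] [Algebra K F2] [Algebra K F']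

/-- `FiniteAlong` for the right-hand side of a square. -/
theorem finiteAlong_square (f : F0 →ₐ[K] F1) (g : F0 →ₐ[K] F2) (g1 : F1 →ₐ[K] F')
    (f2 : F2 →ₐ[K] F') (hsq : ∀ c, g1 (f c) = f2 (g c)) (hfin : FiniteAlong K f)
    (hspan : letI := algebraAlong f2; Submodule.span F2 (Set.range g1) = ⊤)
    (hrank : finrankAlong K f2 = finrankAlong K f) : FiniteAlong K f2 := by
  let _ := algebraAlong f
  let _ := algebraAlong f2
  have : Module.Finite F0 F1 := hfin
  exact finite_square (g : F0 →+* F2) (g1 : F1 →+* F') hsq hspan hrank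

/-- **Norm compatibility in a square of function fields**, with the `algebraAlong` structures:
`N_{f2}(g1 h) = g (N_f h)`. -/
theorem norm_along_square (f : F0 →ₐ[K] F1) (g : F0 →ₐ[K] F2) (g1 : F1 →ₐ[K] F')
    (f2 : F2 →ₐ[K] F') (hsq : ∀ c, g1 (f c) = f2 (g c)) (hfin : FiniteAlong K f)
    (hspan : letI := algebraAlong f2; Submodule.span F2 (Set.range g1) = ⊤)
    (hrank : finrankAlong K f2 = finrankAlong K f) (h : F1) :
    (letI := algebraAlong f2; Algebra.norm F2 (g1 h)) =
      g (letI := algebraAlong f; Algebra.norm F0 h) := by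
  let _ := algebraAlong f
  let _ := algebraAlong f2
  have : Module.Finite F0 F1 := hfin
  exact norm_square (g : F0 →+* F2) (g1 : F1 →+* F') hsq hspan hrank h

/-- Compositum form of the spanning hypothesis, with the `algebraAlong` structures. -/
theorem span_along_of_adjoin (f : F0 →ₐ[K] F1) (g : F0 →ₐ[K] F2) (g1 : F1 →ₐ[K] F')
    (f2 : F2 →ₐ[K] F') (hsq : ∀ c, g1 (f c) = f2 (g c)) (hfin : FiniteAlong K f)
    (hadj : letI := algebraAlong f2; IntermediateField.adjoin F2 (Set.range g1) = ⊤) :
    letI := algebraAlong f2; Submodule.span F2 (Set.range g1) = ⊤ := by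
  let _ := algebraAlong f
  let _ := algebraAlong f2
  have : Module.Finite F0 F1 := hfin
  exact span_range_eq_top_of_adjoin (g : F0 →+* F2) (g1 : F1 →+* F') hsq hadj

end Along

end Fermat.Agent.S29.H46
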